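import Fermat.Agent.SiegelLinearisation.Series
import Mathlib.Analysis.Analytic.Composition
import Mathlib.Analysis.Calculus.FDeriv.Analytic
import Mathlib.Analysis.Calculus.InverseFunctionTheorem.Deriv
import Mathlib.Analysis.Complex.Basic
import Mathlib.NumberTheory.Transcendental.Liouville.LiouvilleWith
import Mathlib.Analysis.SpecialFunctions.Trigonometric.Bounds

/-!
# Siegel's linearisation

The convergent formal solution conjugates a map with a Diophantine multiplier of modulus one to its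
linear part, so small orbits stay small.
-/

set_option autoImplicit false

noncomputable section

open Filter Topology FormalMultilinearSeries

namespace FA.SiegelLinearisation

/-- The coefficients of a composition of scalar series. -/
theorem coeff_comp_ofScalars (p : FormalMultilinearSeries ℂ ℂ ℂ) (b : ℕ → ℂ) (n : ℕ) :
    (p.comp (ofScalars ℂ b)).coeff n =
      ∑ c : Composition n, p.coeff c.length * ∏ i : Fin c.length, b (c.blocksFun i) := by
  show p.comp (ofScalars ℂ b) n 1 = _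
  rw [FormalMultilinearSeries.comp, sum_apply]
  refine Finset.sum_congr rfl fun c _ => ?_
  rw [compAlongComposition_apply, apply_eq_prod_smul_coeff, smul_eq_mul, mul_comm]
  congr 1
  refine Finset.prod_congr rfl fun i _ => ?_
  show ofScalars ℂ b (c.blocksFun i) _ = _
  simp [ofScalars, ContinuousMultilinearMap.mkPiAlgebraFin_apply, List.prod_ofFn]

/-- **The functional equation of the coefficients.** -/
theorem coeff_comp_lin {L : ℂ} (p : FormalMultilinearSeries ℂ ℂ ℂ) (h1 : p.coeff 1 = L)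
    (hne : ∀ n : ℕ, 2 ≤ n → L ^ n ≠ L) {n : ℕ} (hn : 1 ≤ n) :
    (p.comp (ofScalars ℂ (lin L fun k => p.coeff k))).coeff n =
      lin L (fun k => p.coeff k) n * L ^ n := by
  classical
  rw [coeff_comp_ofScalars, ← Finset.add_sum_erase _ _
    (Finset.mem_univ (Composition.single n (by omega)))]
  rw [Finset.sum_subtype (p := fun c : Composition n => 2 ≤ c.length) _ (fun c => by
    have := c.length_pos_of_pos (by omega)
    rw [Finset.mem_erase, and_iff_left (Finset.mem_univ _), ne_eq,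
      Composition.eq_single_iff_length (by omega)]
    omega)]
  have hsingle : p.coeff (Composition.single n (by omega : 0 < n)).length *
      ∏ i : Fin (Composition.single n (by omega : 0 < n)).length,
        lin L (fun k => p.coeff k) ((Composition.single n (by omega : 0 < n)).blocksFun i) =
      L * lin L (fun k => p.coeff k) n := by
    have hl : (Composition.single n (by omega : 0 < n)).length = 1 := Composition.single_length _
    rw [Finset.prod_eq_single (⟨0, by omega⟩ : Fin _)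
      (fun i _ hi => absurd
        (Fin.ext (by have := i.2; simp only [hl] at this; show i.1 = 0; omega)) hi)
      (fun h => absurd (Finset.mem_univ _) h), Composition.single_blocksFun, hl, h1]
  rw [hsingle]
  rcases hn.eq_or_lt with rfl | hn2
  · have : IsEmpty {c : Composition 1 // 2 ≤ c.length} :=
      ⟨fun c => absurd (c.2.trans c.1.length_le) (by norm_num)⟩
    simp [lin_one]
  · conv_lhs => arg 1; rw [lin.eq_def]
    conv_rhs => rw [lin.eq_def]
    dsimp only
    rw [if_neg (by omega)]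
    have : L ^ n - L ≠ 0 := sub_ne_zero.2 (hne n hn2)
    field_simp
    ring

/-- **Siegel's linearisation.** -/
theorem exists_linearisation {f : ℂ → ℂ} (hf : AnalyticAt ℂ f 0) (h0 : f 0 = 0) {L : ℂ}
    (hd : deriv f 0 = L) (hL : ‖L‖ = 1) {γ τ : ℝ} (hγ : 0 < γ)
    (hdio : ∀ k : ℕ, 1 ≤ k → γ * (k : ℝ) ^ (-τ) ≤ ‖L ^ k - 1‖) :
    ∃ g : ℂ → ℂ, AnalyticAt ℂ g 0 ∧ g 0 = 0 ∧ deriv g 0 = 1 ∧
      ∀ᶠ z in 𝓝 0, f (g z) = g (L * z) := by
  obtain ⟨p, hp⟩ := hf
  obtain ⟨r, hr⟩ := hp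
  have hp : HasFPowerSeriesAt f p 0 := ⟨r, hr⟩
  obtain ⟨C, R, hC, hR, ha⟩ := p.le_mul_pow_of_radius_pos (hr.r_pos.trans_le hr.r_le)
  have h1 : p.coeff 1 = L := by rw [← hd, hp.deriv]; rfl
  have hdio' : ∀ k : ℕ, 1 ≤ k → γ * (k : ℝ) ^ (-(max τ 1)) ≤ ‖L ^ k - 1‖ := fun k hk =>
    le_trans (mul_le_mul_of_nonneg_left
      (Real.rpow_le_rpow_of_exponent_le (by exact_mod_cast hk) (neg_le_neg (le_max_left _ _)))
      hγ.le) (hdio k hk)
  have hne : ∀ n : ℕ, 2 ≤ n → L ^ n ≠ L := fun n hn e => by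
    obtain ⟨k, rfl⟩ := Nat.exists_eq_add_of_le (by omega : 1 ≤ n)
    have h := hdio k (by omega)
    have hk : (0 : ℝ) < k := by exact_mod_cast (show 0 < k by omega)
    have hk1 : L ^ k = 1 := by
      refine mul_left_cancel₀ (norm_ne_zero_iff.1 (by rw [hL]; exact one_ne_zero)) ?_
      rw [mul_one, ← pow_succ', ← add_comm 1 k]
      exact e
    rw [hk1, sub_self, norm_zero] at h
    linarith [mul_pos hγ (Real.rpow_pos_of_pos hk (-τ))]
  set b : ℕ → ℂ := lin L fun k => p.coeff k with hb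
  set H : FormalMultilinearSeries ℂ ℂ ℂ := ofScalars ℂ b
  have hrad : 0 < H.radius := radius_lin_pos hL hγ (lt_of_lt_of_le one_pos (le_max_right τ 1))
    hdio' hC.le hR.le fun k => by rw [← norm_apply_eq_norm_coef]; exact ha k
  have hH : HasFPowerSeriesAt H.sum H 0 := (H.hasFPowerSeriesOnBall hrad).hasFPowerSeriesAt
  have hcoeff : ∀ n, H.coeff n = b n := fun n => coeff_ofScalars
  have hg0 : H.sum 0 = 0 := by
    rw [← hH.coeff_zero fun _ => 0, apply_eq_prod_smul_coeff, hcoeff, hb, lin_zero, smul_zero]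
  refine ⟨H.sum, hH.analyticAt, hg0, ?_, ?_⟩
  · rw [hH.deriv, apply_eq_prod_smul_coeff, hcoeff, hb, lin_one]
    simp
  have hcomp : HasFPowerSeriesAt (f ∘ H.sum) (p.comp H) 0 :=
    HasFPowerSeriesAt.comp (by rw [hg0]; exact hp) hH
  have hcomp_coeff : ∀ n, (p.comp H).coeff n = b n * L ^ n := fun n => by
    rcases n.eq_zero_or_pos with rfl | hn
    · show p.comp H 0 1 = _
      rw [comp_coeff_zero', hp.coeff_zero, h0, hb, lin_zero, zero_mul]
    · exact coeff_comp_lin p h1 hne hn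
  have ht : Tendsto (fun z : ℂ => L * z) (𝓝 0) (𝓝 0) := by
    simpa using (continuous_const_mul L).tendsto 0
  filter_upwards [hasFPowerSeriesAt_iff.1 hcomp, ht.eventually (hasFPowerSeriesAt_iff.1 hH)]
    with z hz hz'
  rw [zero_add] at hz hz'
  refine hz.unique ?_
  convert hz' using 1
  funext n
  rw [hcoeff, hcomp_coeff, smul_eq_mul, smul_eq_mul, mul_pow]
  ring

/-- **Stability**: small orbits stay small. -/
theorem exists_stable {f : ℂ → ℂ} (hf : AnalyticAt ℂ f 0) (h0 : f 0 = 0) {L : ℂ}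
    (hd : deriv f 0 = L) (hL : ‖L‖ = 1) {γ τ : ℝ} (hγ : 0 < γ)
    (hdio : ∀ k : ℕ, 1 ≤ k → γ * (k : ℝ) ^ (-τ) ≤ ‖L ^ k - 1‖) {ε : ℝ} (hε : 0 < ε) :
    ∃ δ > 0, ∀ z : ℂ, ‖z‖ < δ → ∀ n : ℕ, ‖f^[n] z‖ < ε := by
  obtain ⟨g, hg, hg0, hg1, heq⟩ := exists_linearisation hf h0 hd hL hγ hdio
  obtain ⟨q, hq⟩ := hg
  have hmap : map g (𝓝 0) = 𝓝 0 := by
    have h : HasStrictDerivAt g 1 0 := by
      have h := hq.hasStrictDerivAt
      rwa [← hq.deriv, hg1] at h
    have := h.map_nhds_eq one_ne_zero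
    rwa [hg0] at this
  have hsmall : ∀ᶠ w in 𝓝 (0 : ℂ), ‖g w‖ < ε ∧ f (g w) = g (L * w) := by
    refine (Filter.Eventually.and ?_ heq)
    have := hq.continuousAt.tendsto
    rw [hg0] at this
    filter_upwards [this.eventually (Metric.ball_mem_nhds (0 : ℂ) hε)] with w hw
    simpa using hw
  obtain ⟨ρ, hρ, hball⟩ := Metric.eventually_nhds_iff.1 hsmall
  have himg : g '' Metric.ball 0 ρ ∈ 𝓝 (0 : ℂ) := by
    rw [← hmap]; exact image_mem_map (Metric.ball_mem_nhds 0 hρ)
  obtain ⟨δ, hδ, hsub⟩ := Metric.mem_nhds_iff.1 himg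
  refine ⟨δ, hδ, fun z hz n => ?_⟩
  obtain ⟨w, hw, rfl⟩ := hsub (by simpa using hz)
  have hwn : ∀ n : ℕ, L ^ n * w ∈ Metric.ball (0 : ℂ) ρ := fun n => by
    simpa [norm_mul, norm_pow, hL] using hw
  have key : ∀ n : ℕ, f^[n] (g w) = g (L ^ n * w) := fun n => by
    induction n with
    | zero => simp
    | succ n ih =>
      rw [Function.iterate_succ_apply', ih, (hball (hwn n)).2, pow_succ', mul_assoc]
  rw [key]
  exact (hball (hwn n)).1

/-- A number badly approximable of exponent three gives a Diophantine multiplier. -/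
theorem exists_dio {θ : ℝ} (hirr : Irrational θ) (hnl : ¬ LiouvilleWith 3 θ) :
    ∃ γ : ℝ, 0 < γ ∧ ∀ k : ℕ, 1 ≤ k →
      γ * (k : ℝ) ^ (-(2 : ℝ)) ≤
        ‖Complex.exp (2 * Real.pi * Complex.I * θ) ^ k - 1‖ := by
  set u : ℕ → ℝ := fun k => |(k : ℝ) * θ - round ((k : ℝ) * θ)|
  have hu : ∀ k, 1 ≤ k → 0 < u k := fun k hk => abs_pos.2 (sub_ne_zero.2
    ((hirr.natCast_mul (by omega)).ne_int _))
  have hev : ∀ᶠ k : ℕ in atTop, 1 ≤ (k : ℝ) ^ (2 : ℕ) * u k := by
    have h := hnl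
    simp only [LiouvilleWith, not_exists, Filter.not_frequently, not_and, not_lt] at h
    filter_upwards [h 1, eventually_ge_atTop 1] with k hk hk1
    have hk0 : (0 : ℝ) < k := by exact_mod_cast hk1
    have hne : θ ≠ (round ((k : ℝ) * θ) : ℝ) / k := fun e => by
      rw [eq_div_iff hk0.ne', mul_comm] at e
      exact (hirr.natCast_mul (by omega : k ≠ 0)).ne_int _ e
    have := hk _ hne
    rw [show θ - (round ((k : ℝ) * θ) : ℝ) / k = ((k : ℝ) * θ - round ((k : ℝ) * θ)) / k by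
      field_simp, abs_div, abs_of_pos hk0, div_le_div_iff₀ (Real.rpow_pos_of_pos hk0 _) hk0,
      show (3 : ℝ) = ((3 : ℕ) : ℝ) by norm_num, Real.rpow_natCast] at this
    refine le_of_mul_le_mul_right ?_ hk0
    calc (1 : ℝ) * k ≤ u k * (k : ℝ) ^ 3 := this
      _ = _ := by ring
  obtain ⟨N, hN⟩ := eventually_atTop.1 hev
  obtain ⟨m, hm, hmin⟩ := (Finset.Icc 1 (N + 1)).exists_min_image
    (fun k : ℕ => (k : ℝ) ^ (2 : ℕ) * u k) ⟨1, by simp⟩
  set γ := min 1 ((m : ℝ) ^ (2 : ℕ) * u m) with hγ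
  have hγ0 : 0 < γ := by
    have hm1 : 1 ≤ m := (Finset.mem_Icc.1 hm).1
    exact lt_min one_pos (mul_pos (by positivity) (hu m hm1))
  refine ⟨γ, hγ0, fun k hk => ?_⟩
  have hk0 : (0 : ℝ) < k := by exact_mod_cast hk
  have hle : γ ≤ (k : ℝ) ^ (2 : ℕ) * u k := by
    by_cases hkN : k ≤ N
    · exact (min_le_right _ _).trans (hmin k (Finset.mem_Icc.2 ⟨hk, by omega⟩))
    · exact (min_le_left _ _).trans (hN k (by omega))
  have hexp : Complex.exp (2 * Real.pi * Complex.I * θ) ^ k =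
      Complex.exp (Complex.I * ((2 * Real.pi * ((k : ℝ) * θ - round ((k : ℝ) * θ)) : ℝ) : ℂ)) := by
    rw [← Complex.exp_nat_mul, Complex.exp_eq_exp_iff_exists_int]
    exact ⟨round ((k : ℝ) * θ), by push_cast; ring⟩
  rw [hexp, Complex.norm_exp_I_mul_ofReal_sub_one, Real.rpow_neg hk0.le, ← div_eq_mul_inv,
    Real.rpow_two, div_le_iff₀ (by positivity)]
  refine hle.trans ?_
  rw [mul_comm]
  refine mul_le_mul_of_nonneg_right ?_ (by positivity)
  set x : ℝ := (k : ℝ) * θ - round ((k : ℝ) * θ)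
  have hx : |x| ≤ 1 / 2 := abs_sub_round _
  have h2 : |Real.pi * x| ≤ Real.pi / 2 := by
    rw [abs_mul, abs_of_pos Real.pi_pos]; nlinarith [Real.pi_pos]
  have h3 := Real.mul_abs_le_abs_sin h2
  rw [abs_mul Real.pi, abs_of_pos Real.pi_pos, ← mul_assoc,
    div_mul_cancel₀ _ Real.pi_ne_zero] at h3
  rw [show 2 * Real.pi * x / 2 = Real.pi * x by ring, Real.norm_eq_abs, abs_mul]
  show |x| ≤ _
  rw [abs_two]
  nlinarith [abs_nonneg x, abs_nonneg (Real.sin (Real.pi * x))]

end FA.SiegelLinearisation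

end
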