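import Mathlib.Combinatorics.Enumerative.Composition
import Mathlib.Analysis.SpecialFunctions.Pow.Real
import Mathlib.Algebra.Order.Field.GeomSum
import Mathlib.Analysis.Complex.Norm
import Mathlib.Algebra.BigOperators.Field

/-!
# The counting lemma of Siegel and Brjuno

Unfold a recursion over compositions into trees; among the nodes of a tree with `n` leaves at most
`2 n / d` have a bad size, if bad sizes exceed `d` and differ by at least `d`.
-/

set_option autoImplicit false

noncomputable section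

open Finset
open scoped Classical

namespace FA.SiegelLinearisation

theorem blocksFun_lt {n : ℕ} (c : Composition n) (h : 2 ≤ c.length) (i : Fin c.length) :
    c.blocksFun i < n := by
  have hn : 0 < n := by have := c.length_le; omega
  exact (Composition.ne_single_iff hn).1 (fun e => by
    have := (Composition.eq_single_iff_length hn).1 e; omega) i

/-- The largest number of bad nodes in a tree with `n` leaves. -/
def count (bad : ℕ → Prop) : ℕ → ℕ
  | n => (if bad n then 1 else 0) + (Finset.univ : Finset {c : Composition n // 2 ≤ c.length}).sup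
      fun c => ∑ i : Fin c.1.length, count bad (c.1.blocksFun i)
termination_by n => n
decreasing_by exact blocksFun_lt c.1 c.2 i

theorem count_children (bad : ℕ → Prop) {n : ℕ} (c : Composition n) (h : 2 ≤ c.length) :
    (if bad n then 1 else 0) + ∑ i : Fin c.length, count bad (c.blocksFun i) ≤ count bad n := by
  rw [count.eq_def bad n]
  exact Nat.add_le_add_left (Finset.le_sup
    (f := fun c : {c : Composition n // 2 ≤ c.length} =>
      ∑ i : Fin c.1.length, count bad (c.1.blocksFun i)) (Finset.mem_univ ⟨c, h⟩)) _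

/-- A node is a leaf for the count or has an extreme composition. -/
theorem count_cases (bad : ℕ → Prop) (n : ℕ) :
    count bad n = (if bad n then 1 else 0) ∨ ∃ c : Composition n, 2 ≤ c.length ∧
      count bad n = (if bad n then 1 else 0) + ∑ i : Fin c.length, count bad (c.blocksFun i) := by
  rw [count.eq_def bad n]
  dsimp only
  rcases (Finset.univ : Finset {c : Composition n // 2 ≤ c.length}).eq_empty_or_nonempty with e | e
  · exact Or.inl (by rw [e]; simp)
  · obtain ⟨c, -, hc⟩ := Finset.exists_mem_eq_sup _ e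
      (fun c => ∑ i : Fin c.1.length, count bad (c.1.blocksFun i))
    exact Or.inr ⟨c.1, c.2, by rw [hc]⟩

/-- The children: none counts, or one, or their sum is small. -/
theorem children_cases {d : ℝ} (hd : 0 < d) (bad : ℕ → Prop) {n : ℕ} (c : Composition n)
    (h : 2 ≤ c.length)
    (hP : ∀ k < n, count bad k = 0 ∨ (count bad k : ℝ) ≤ 2 * k / d - 1) :
    ∑ i : Fin c.length, count bad (c.blocksFun i) = 0 ∨
      (∑ i : Fin c.length, (count bad (c.blocksFun i) : ℝ)) ≤ 2 * n / d - 2 ∨
      ∃ i, ∑ j : Fin c.length, count bad (c.blocksFun j) = count bad (c.blocksFun i) := by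
  set S := (Finset.univ : Finset (Fin c.length)).filter fun i => count bad (c.blocksFun i) ≠ 0
  have hsum : ∑ i : Fin c.length, count bad (c.blocksFun i) =
      ∑ i ∈ S, count bad (c.blocksFun i) := by
    rw [Finset.sum_filter_ne_zero]
  rcases Nat.lt_or_ge S.card 2 with hS | hS
  · rcases Nat.le_one_iff_eq_zero_or_eq_one.1 (Nat.lt_succ_iff.1 hS) with h0 | h1
    · exact Or.inl (by rw [hsum, Finset.card_eq_zero.1 h0, Finset.sum_empty])
    · obtain ⟨i, hi⟩ := Finset.card_eq_one.1 h1
      exact Or.inr (Or.inr ⟨i, by rw [hsum, hi, Finset.sum_singleton]⟩)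
  refine Or.inr (Or.inl ?_)
  have e : (∑ i : Fin c.length, (count bad (c.blocksFun i) : ℝ)) =
      ∑ i ∈ S, (count bad (c.blocksFun i) : ℝ) := by exact_mod_cast hsum
  rw [e]
  calc ∑ i ∈ S, (count bad (c.blocksFun i) : ℝ)
      ≤ ∑ i ∈ S, (2 * (c.blocksFun i : ℝ) / d - 1) := Finset.sum_le_sum fun i hi =>
        (hP _ (blocksFun_lt c h i)).resolve_left (Finset.mem_filter.1 hi).2
    _ = 2 * (∑ i ∈ S, (c.blocksFun i : ℝ)) / d - S.card := by
        rw [Finset.sum_sub_distrib, Finset.sum_const, nsmul_one, ← Finset.sum_div, Finset.mul_sum]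
    _ ≤ _ := by
        refine sub_le_sub ?_ (by exact_mod_cast hS)
        refine div_le_div_of_nonneg_right (mul_le_mul_of_nonneg_left ?_ two_pos.le) hd.le
        calc ∑ i ∈ S, (c.blocksFun i : ℝ) ≤ ∑ i, (c.blocksFun i : ℝ) :=
              Finset.sum_le_sum_of_subset_of_nonneg (Finset.subset_univ _) fun _ _ _ =>
                Nat.cast_nonneg _
          _ = n := by exact_mod_cast c.sum_blocksFun

/-- **The counting lemma.** -/
theorem count_le {d : ℝ} (hd : 0 < d) (bad : ℕ → Prop) (hbig : ∀ n, bad n → d < n)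
    (hsep : ∀ n m, bad n → bad m → n < m → d ≤ (m : ℝ) - n) (n : ℕ) :
    (count bad n = 0 ∨ (count bad n : ℝ) ≤ 2 * n / d - 1) ∧
      ∀ m, bad m → n < m → count bad n = 0 ∨ (count bad n : ℝ) ≤ 2 * m / d - 2 := by
  induction n using Nat.strong_induction_on with
  | _ n ih =>
  have two_le : ∀ x : ℝ, d ≤ x → 2 ≤ 2 * x / d := fun x hx => by
    rw [le_div_iff₀ hd]; linarith
  have hP : count bad n = 0 ∨ (count bad n : ℝ) ≤ 2 * n / d - 1 := by
    by_cases hb : bad n
    · refine Or.inr ?_
      have hn := two_le _ (hbig n hb).le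
      rcases count_cases bad n with e | ⟨c, hc, e⟩ <;> rw [e, if_pos hb] <;> push_cast
      · linarith
      rcases children_cases hd bad c hc fun k hk => (ih k hk).1 with h0 | h2 | ⟨i, hi⟩
      · have : (∑ i : Fin c.length, (count bad (c.blocksFun i) : ℝ)) = 0 := by exact_mod_cast h0
        linarith
      · linarith
      · have : (∑ j : Fin c.length, (count bad (c.blocksFun j) : ℝ)) =
            count bad (c.blocksFun i) := by exact_mod_cast hi
        rcases (ih _ (blocksFun_lt c hc i)).2 n hb (blocksFun_lt c hc i) with h | h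
        · rw [this, h, Nat.cast_zero]; linarith
        · linarith
    · rcases count_cases bad n with e | ⟨c, hc, e⟩ <;> rw [e, if_neg hb]
      · exact Or.inl rfl
      rw [zero_add]
      rcases children_cases hd bad c hc fun k hk => (ih k hk).1 with h0 | h2 | ⟨i, hi⟩
      · exact Or.inl h0
      · exact Or.inr (by push_cast; linarith)
      · rw [hi]
        refine (ih _ (blocksFun_lt c hc i)).1.imp_right fun h => h.trans ?_
        refine sub_le_sub_right (div_le_div_of_nonneg_right (mul_le_mul_of_nonneg_left ?_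
          two_pos.le) hd.le) 1
        exact_mod_cast (blocksFun_lt c hc i).le
  refine ⟨hP, fun m hm hnm => ?_⟩
  have hnm' : (n : ℝ) < m := by exact_mod_cast hnm
  rcases le_or_gt (d / 2) ((m : ℝ) - n) with hfar | hnear
  · refine hP.imp_right fun h => h.trans ?_
    have : 2 * ((m : ℝ) - n) / d ≥ 1 := by rw [ge_iff_le, le_div_iff₀ hd]; linarith
    rw [mul_sub, sub_div] at this
    linarith
  have hb : ¬ bad n := fun hb => by linarith [hsep n m hb hm hnm]
  rcases count_cases bad n with e | ⟨c, hc, e⟩ <;> rw [e, if_neg hb]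
  · exact Or.inl rfl
  rw [zero_add]
  rcases children_cases hd bad c hc fun k hk => (ih k hk).1 with h0 | h2 | ⟨i, hi⟩
  · exact Or.inl h0
  · refine Or.inr ?_
    have : 2 * (n : ℝ) / d ≤ 2 * m / d := div_le_div_of_nonneg_right (by linarith) hd.le
    push_cast
    linarith
  · rw [hi]
    exact (ih _ (blocksFun_lt c hc i)).2 m hm ((blocksFun_lt c hc i).trans hnm)

theorem count_le_linear {d : ℝ} (hd : 0 < d) (bad : ℕ → Prop) (hbig : ∀ n, bad n → d < n)
    (hsep : ∀ n m, bad n → bad m → n < m → d ≤ (m : ℝ) - n) (n : ℕ) :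
    (count bad n : ℝ) ≤ 2 * n / d := by
  rcases (count_le hd bad hbig hsep n).1 with h | h
  · rw [h, Nat.cast_zero]; positivity
  · linarith

/-! ### Small divisors -/

/-- The reciprocals of the small divisors. -/
def eps (L : ℂ) (n : ℕ) : ℝ := ‖L ^ n - L‖⁻¹

/-- The sizes with a small divisor at the level `j`. -/
def badAt (L : ℂ) (j n : ℕ) : Prop := 2 ≤ n ∧ (2 : ℝ) ^ j < eps L n

/-- The exponent of the bound for the products of small divisors, levels below `J`. -/
def weight (L : ℂ) (J n : ℕ) : ℕ := ∑ j ∈ Finset.range J, count (badAt L j) n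

theorem le_two_pow_levels (L : ℂ) {n : ℕ} (hn : 2 ≤ n) :
    ∀ J, eps L n ≤ (2 : ℝ) ^ J →
      eps L n ≤ (2 : ℝ) ^ ∑ j ∈ Finset.range J, if badAt L j n then 1 else 0 := by
  intro J
  induction J with
  | zero => simp
  | succ J ih =>
    intro h
    by_cases hJ : eps L n ≤ (2 : ℝ) ^ J
    · refine (ih hJ).trans (pow_le_pow_right₀ one_le_two ?_)
      rw [Finset.sum_range_succ]
      exact Nat.le_add_right _ _
    · rw [Finset.sum_congr rfl fun j hj => if_pos (show badAt L j n from ⟨hn,
        lt_of_le_of_lt (pow_le_pow_right₀ one_le_two (Nat.lt_succ_iff.1 (Finset.mem_range.1 hj)))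
          (not_le.1 hJ)⟩)]
      simpa using h

/-- **The product of the small divisors of a tree is below the weight.** -/
theorem eps_mul_prod_le (L : ℂ) {n J : ℕ} (hJ : eps L n ≤ (2 : ℝ) ^ J) (c : Composition n)
    (hc : 2 ≤ c.length) :
    eps L n * ∏ i : Fin c.length, (2 : ℝ) ^ weight L J (c.blocksFun i) ≤
      (2 : ℝ) ^ weight L J n := by
  have hn : 2 ≤ n := hc.trans c.length_le
  calc _ ≤ (2 : ℝ) ^ (∑ j ∈ Finset.range J, if badAt L j n then 1 else 0) *
        ∏ i : Fin c.length, (2 : ℝ) ^ weight L J (c.blocksFun i) :=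
        mul_le_mul_of_nonneg_right (le_two_pow_levels L hn J hJ)
          (Finset.prod_nonneg fun i _ => pow_nonneg two_pos.le _)
    _ ≤ _ := by
        rw [Finset.prod_pow_eq_pow_sum, ← pow_add]
        refine pow_le_pow_right₀ one_le_two ?_
        unfold weight
        rw [Finset.sum_comm, ← Finset.sum_add_distrib]
        exact Finset.sum_le_sum fun j _ => count_children _ c hc

/-- **The weight grows linearly** under a Diophantine condition. -/
theorem exists_weight_le {L : ℂ} (hL : ‖L‖ = 1) {γ τ : ℝ} (hγ : 0 < γ) (hτ : 0 < τ)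
    (hdio : ∀ k : ℕ, 1 ≤ k → γ * (k : ℝ) ^ (-τ) ≤ ‖L ^ k - 1‖) :
    ∃ C : ℕ, ∀ J n : ℕ, weight L J n ≤ C * n := by
  set d : ℕ → ℝ := fun j => (γ * 2 ^ j / 2) ^ τ⁻¹
  set r : ℝ := ((2 : ℝ) ^ τ⁻¹)⁻¹
  have hd0 : ∀ j, 0 < d j := fun j => Real.rpow_pos_of_pos (by positivity) _
  -- a divisor below `2 ⁻ʲ⁺¹` needs an exponent of at least `d j`
  have hexp : ∀ (j k : ℕ), 1 ≤ k → ‖L ^ k - 1‖ < 2 * ((2 : ℝ) ^ j)⁻¹ → d j < k := fun j k hk h => by
    have hk0 : (0 : ℝ) < k := by exact_mod_cast hk
    have h1 := (hdio k hk).trans_lt h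
    rw [Real.rpow_neg hk0.le, ← div_eq_mul_inv, div_lt_iff₀ (by positivity)] at h1
    have h2 : γ * 2 ^ j / 2 < (k : ℝ) ^ τ := by
      rw [div_lt_iff₀ two_pos]
      have := mul_lt_mul_of_pos_right h1 (show (0 : ℝ) < 2 ^ j by positivity)
      rw [mul_assoc, mul_comm ((k : ℝ) ^ τ), ← mul_assoc, mul_assoc (2 : ℝ),
        inv_mul_cancel₀ (by positivity), mul_one] at this
      linarith
    calc d j < ((k : ℝ) ^ τ) ^ τ⁻¹ := Real.rpow_lt_rpow (by positivity) h2 (by positivity)
      _ = k := Real.rpow_rpow_inv hk0.le hτ.ne'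
  have hsmall : ∀ {j n : ℕ}, badAt L j n → ‖L ^ n - L‖ < ((2 : ℝ) ^ j)⁻¹ := fun {j n} hb => by
    have h := hb.2
    rw [eps] at h
    have hpos : 0 < ‖L ^ n - L‖ := by
      rcases (norm_nonneg (L ^ n - L)).eq_or_lt with e | e
      · rw [← e, inv_zero] at h; exact absurd h (by simp)
      · exact e
    exact (lt_inv_comm₀ (by positivity) hpos).1 h
  have hbig : ∀ j n, badAt L j n → d j < n := fun j n hb => by
    obtain ⟨k, rfl⟩ := Nat.exists_eq_add_of_le hb.1
    refine (hexp j (1 + k) (by omega) ?_).trans (by push_cast; linarith)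
    have h := hsmall hb
    rw [show L ^ (2 + k) - L = L * (L ^ (1 + k) - 1) by ring, norm_mul, hL, one_mul] at h
    have : (0 : ℝ) < ((2 : ℝ) ^ j)⁻¹ := by positivity
    linarith
  have hsep : ∀ j n m, badAt L j n → badAt L j m → n < m → d j ≤ (m : ℝ) - n :=
    fun j n m hn hm hnm => by
      obtain ⟨k, rfl⟩ := Nat.exists_eq_add_of_le hnm.le
      push_cast
      rw [add_sub_cancel_left]
      refine (hexp j k (by omega) ?_).le
      calc ‖L ^ k - 1‖ = ‖L ^ (n + k) - L - (L ^ n - L)‖ := by
            rw [show L ^ (n + k) - L - (L ^ n - L) = L ^ n * (L ^ k - 1) by ring, norm_mul,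
              norm_pow, hL, one_pow, one_mul]
        _ ≤ _ := norm_sub_le _ _
        _ < _ := by linarith [hsmall hn, hsmall hm]
  have hr0 : 0 < r := by positivity
  have hr1 : r < 1 :=
    inv_lt_one_of_one_lt₀ (Real.one_lt_rpow one_lt_two (by positivity))
  have hd : ∀ j, (d j)⁻¹ = ((γ / 2) ^ τ⁻¹)⁻¹ * r ^ j := fun j => by
    show ((γ * 2 ^ j / 2) ^ τ⁻¹)⁻¹ = _
    rw [show γ * 2 ^ j / 2 = γ / 2 * 2 ^ j by ring, Real.mul_rpow (by positivity) (by positivity),
      mul_inv]
    congr 1
    rw [inv_pow, ← Real.rpow_natCast 2 j, ← Real.rpow_natCast ((2 : ℝ) ^ τ⁻¹) j,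
      ← Real.rpow_mul two_pos.le, ← Real.rpow_mul two_pos.le, mul_comm]
  refine ⟨⌈2 * ((γ / 2) ^ τ⁻¹)⁻¹ / (1 - r)⌉₊, fun J n => ?_⟩
  have key : (weight L J n : ℝ) ≤ 2 * ((γ / 2) ^ τ⁻¹)⁻¹ / (1 - r) * n := by
    rw [weight, Nat.cast_sum]
    calc ∑ j ∈ Finset.range J, (count (badAt L j) n : ℝ)
        ≤ ∑ j ∈ Finset.range J, 2 * (n : ℝ) / d j := Finset.sum_le_sum fun j _ =>
          count_le_linear (hd0 j) _ (hbig j) (hsep j) n
      _ = 2 * (n : ℝ) * ((γ / 2) ^ τ⁻¹)⁻¹ * ∑ j ∈ Finset.range J, r ^ j := by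
          rw [Finset.mul_sum]
          exact Finset.sum_congr rfl fun j _ => by rw [div_eq_mul_inv, hd j]; ring
      _ ≤ 2 * (n : ℝ) * ((γ / 2) ^ τ⁻¹)⁻¹ * (1 / (1 - r)) := by
          refine mul_le_mul_of_nonneg_left ?_ (by positivity)
          rw [geom_sum_eq hr1.ne, ← neg_div_neg_eq, neg_sub, neg_sub]
          exact div_le_div_of_nonneg_right (by linarith [pow_pos hr0 J]) (by linarith)
      _ = _ := by ring
  have := key.trans (mul_le_mul_of_nonneg_right (Nat.le_ceil _) (Nat.cast_nonneg n))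
  exact_mod_cast this

end FA.SiegelLinearisation

end
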