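import Fermat.Agent.SiegelLinearisation.Counting
import Mathlib.Analysis.Analytic.Inverse
import Mathlib.Analysis.Analytic.OfScalars

/-!
# The linearising series converges

The coefficients of the formal solution of `f (h z) = h (L z)` are at most those of a convergent
majorant times the products of small divisors along trees, which grow at most exponentially.
-/

set_option autoImplicit false

noncomputable section

open Finset
open scoped Classical

namespace FA.SiegelLinearisation

/-- The coefficients of the linearising series; `a` are those of the map, `L` is the multiplier. -/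
def lin (L : ℂ) (a : ℕ → ℂ) : ℕ → ℂ
  | n => if n = 1 then 1 else (L ^ n - L)⁻¹ *
      ∑ c : {c : Composition n // 2 ≤ c.length}, a c.1.length *
        ∏ i : Fin c.1.length, lin L a (c.1.blocksFun i)
termination_by n => n
decreasing_by exact blocksFun_lt c.1 c.2 i

/-- The majorant without small divisors. -/
def major (C R : ℝ) : ℕ → ℝ
  | n => if n = 1 then 1 else
      ∑ c : {c : Composition n // 2 ≤ c.length}, C * R ^ c.1.length *
        ∏ i : Fin c.1.length, major C R (c.1.blocksFun i)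
termination_by n => n
decreasing_by exact blocksFun_lt c.1 c.2 i

theorem lin_one (L : ℂ) (a : ℕ → ℂ) : lin L a 1 = 1 := by rw [lin.eq_def]; simp

theorem lin_zero (L : ℂ) (a : ℕ → ℂ) : lin L a 0 = 0 := by
  rw [lin.eq_def]
  dsimp only
  rw [if_neg zero_ne_one]
  have : IsEmpty {c : Composition 0 // 2 ≤ c.length} :=
    ⟨fun c => absurd (c.2.trans c.1.length_le) (by norm_num)⟩
  simp

theorem major_nonneg {C R : ℝ} (hC : 0 ≤ C) (hR : 0 ≤ R) (n : ℕ) : 0 ≤ major C R n := by
  induction n using Nat.strong_induction_on with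
  | _ n ih =>
  rw [major.eq_def]
  dsimp only
  split_ifs
  · exact zero_le_one
  · exact Finset.sum_nonneg fun c _ => mul_nonneg (mul_nonneg hC (pow_nonneg hR _))
      (Finset.prod_nonneg fun i _ => ih _ (blocksFun_lt c.1 c.2 i))

/-- **The majorant grows at most exponentially.** -/
theorem exists_major_le {C R : ℝ} (hC : 0 ≤ C) (hR : 0 ≤ R) :
    ∃ x : ℝ, 0 < x ∧ ∀ n, 1 ≤ n → x ^ n * major C R n ≤ 1 := by
  have hpos : 0 < 1 + 4 * R + 8 * C * R ^ 2 := by positivity
  set x := (2 * (1 + 4 * R + 8 * C * R ^ 2))⁻¹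
  have hx : 0 < x := by positivity
  have hx' : (1 + 4 * R + 8 * C * R ^ 2) * x = 1 / 2 := by
    show (1 + 4 * R + 8 * C * R ^ 2) * (2 * (1 + 4 * R + 8 * C * R ^ 2))⁻¹ = 1 / 2
    field_simp
  set S : ℕ → ℝ := fun n => ∑ k ∈ Finset.Ico 1 n, x ^ k * major C R k
  have hS0 : ∀ n, 0 ≤ S n := fun n =>
    Finset.sum_nonneg fun k _ => mul_nonneg (pow_nonneg hx.le k) (major_nonneg hC hR k)
  have key : ∀ n, 1 ≤ n → S n ≤ 2 * x := by
    refine Nat.le_induction (by simp [S, hx.le]) fun n hn ih => ?_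
    have hRS : R * S n ≤ 1 / 2 := by
      refine (mul_le_mul_of_nonneg_left ih hR).trans ?_
      nlinarith [mul_nonneg (mul_nonneg hC (sq_nonneg R)) hx.le, hx, mul_nonneg hR hx.le]
    have hstep : S (n + 1) ≤ x + C * ∑ j ∈ Finset.Ico 2 (n + 1), (R * S n) ^ j := by
      have e : S (n + 1) = x + ∑ k ∈ Finset.Ico 2 (n + 1), x ^ k * major C R k := by
        show ∑ k ∈ Finset.Ico 1 (n + 1), x ^ k * major C R k = _
        rw [Finset.sum_eq_sum_Ico_succ_bot (by omega) fun k => x ^ k * major C R k]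
        rw [major.eq_def C R 1]
        simp
      rw [e]
      refine add_le_add_right ?_ x
      calc ∑ k ∈ Finset.Ico 2 (n + 1), x ^ k * major C R k
          = C * ∑ k ∈ Finset.Ico 2 (n + 1), x ^ k *
              ∑ c ∈ ({c | 1 < Composition.length c}.toFinset : Finset (Composition k)),
                R ^ c.length * ∏ j, major C R (c.blocksFun j) := by
            rw [Finset.mul_sum]
            refine Finset.sum_congr rfl fun k hk => ?_
            rw [Finset.mem_Ico] at hk
            rw [major.eq_def C R k]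
            dsimp only
            rw [if_neg (by omega), Finset.mul_sum, Finset.mul_sum, Finset.mul_sum]
            rw [Finset.sum_subtype (p := fun c : Composition k => 2 ≤ c.length)
              ({c | 1 < Composition.length c}.toFinset : Finset (Composition k))
              (fun c => by simp; omega)]
            exact Finset.sum_congr rfl fun c _ => by ring
        _ ≤ C * ∑ j ∈ Finset.Ico 2 (n + 1), R ^ j * S n ^ j :=
            mul_le_mul_of_nonneg_left
              (FormalMultilinearSeries.radius_right_inv_pos_of_radius_pos_aux1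
                n (major C R) (major_nonneg hC hR) hR hx.le) hC
        _ = _ := by simp only [mul_pow]
    refine hstep.trans ?_
    have hy0 : 0 ≤ R * S n := mul_nonneg hR (hS0 n)
    have hgeo : ∑ j ∈ Finset.Ico 2 (n + 1), (R * S n) ^ j ≤ (R * S n) ^ 2 / (1 / 2) := by
      rw [geom_sum_Ico' (ne_of_lt (hRS.trans_lt (by norm_num))) (by omega)]
      refine div_le_div₀ (sq_nonneg _) ?_ (by norm_num) (by linarith)
      linarith [pow_nonneg hy0 (n + 1)]
    have h2 : (R * S n) ^ 2 ≤ (R * (2 * x)) ^ 2 :=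
      pow_le_pow_left₀ hy0 (mul_le_mul_of_nonneg_left ih hR) 2
    nlinarith [mul_le_mul_of_nonneg_left hgeo hC, mul_le_mul_of_nonneg_left h2 hC,
      mul_nonneg hR hx.le, mul_nonneg hx.le (mul_nonneg hR hx.le)]
  refine ⟨x, hx, fun n hn => ?_⟩
  have h1 : x ^ n * major C R n ≤ S (n + 1) :=
    Finset.single_le_sum (f := fun k => x ^ k * major C R k)
      (fun k _ => mul_nonneg (pow_nonneg hx.le k) (major_nonneg hC hR k))
      (Finset.mem_Ico.2 ⟨hn, n.lt_succ_self⟩)
  refine h1.trans ((key (n + 1) (by omega)).trans ?_)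
  nlinarith [mul_nonneg (mul_nonneg hC (sq_nonneg R)) hx.le, mul_nonneg hR hx.le]

/-- **The coefficients are below the majorant times the small divisors.** -/
theorem norm_lin_le {L : ℂ} {a : ℕ → ℂ} {C R : ℝ} (hC : 0 ≤ C) (hR : 0 ≤ R)
    (ha : ∀ k, ‖a k‖ ≤ C * R ^ k) {J : ℕ} :
    ∀ n, 1 ≤ n → (∀ m, m ≤ n → eps L m ≤ (2 : ℝ) ^ J) →
      ‖lin L a n‖ ≤ major C R n * (2 : ℝ) ^ weight L J n := by
  intro n
  induction n using Nat.strong_induction_on with
  | _ n ih =>
  intro hn hJ
  rw [lin.eq_def, major.eq_def]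
  dsimp only
  by_cases h1 : n = 1
  · rw [if_pos h1, if_pos h1, norm_one, one_mul]
    exact one_le_pow₀ one_le_two
  rw [if_neg h1, if_neg h1, norm_mul, norm_inv, Finset.sum_mul]
  refine (mul_le_mul_of_nonneg_left (norm_sum_le _ _) (inv_nonneg.2 (norm_nonneg _))).trans ?_
  rw [Finset.mul_sum]
  refine Finset.sum_le_sum fun c _ => ?_
  rw [norm_mul, norm_prod]
  have hprod : ∏ i : Fin c.1.length, ‖lin L a (c.1.blocksFun i)‖ ≤
      (∏ i : Fin c.1.length, major C R (c.1.blocksFun i)) *
        ∏ i : Fin c.1.length, (2 : ℝ) ^ weight L J (c.1.blocksFun i) := by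
    rw [← Finset.prod_mul_distrib]
    exact Finset.prod_le_prod (fun i _ => norm_nonneg _) fun i _ =>
      ih _ (blocksFun_lt c.1 c.2 i) (c.1.one_le_blocksFun i) fun m hm =>
        hJ m (hm.trans (blocksFun_lt c.1 c.2 i).le)
  have hM : 0 ≤ ∏ i : Fin c.1.length, major C R (c.1.blocksFun i) :=
    Finset.prod_nonneg fun i _ => major_nonneg hC hR _
  calc ‖L ^ n - L‖⁻¹ * (‖a c.1.length‖ * ∏ i : Fin c.1.length, ‖lin L a (c.1.blocksFun i)‖)
      ≤ ‖L ^ n - L‖⁻¹ * (C * R ^ c.1.length *
          ((∏ i : Fin c.1.length, major C R (c.1.blocksFun i)) *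
            ∏ i : Fin c.1.length, (2 : ℝ) ^ weight L J (c.1.blocksFun i))) :=
        mul_le_mul_of_nonneg_left (mul_le_mul (ha _) hprod
          (Finset.prod_nonneg fun i _ => norm_nonneg _) (by positivity))
          (inv_nonneg.2 (norm_nonneg _))
    _ = C * R ^ c.1.length * (∏ i : Fin c.1.length, major C R (c.1.blocksFun i)) *
          (eps L n * ∏ i : Fin c.1.length, (2 : ℝ) ^ weight L J (c.1.blocksFun i)) := by
        rw [eps]; ring
    _ ≤ _ := mul_le_mul_of_nonneg_left (eps_mul_prod_le L (hJ n le_rfl) c.1 c.2)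
        (mul_nonneg (by positivity) hM)

/-- **The linearising series has a positive radius of convergence.** -/
theorem radius_lin_pos {L : ℂ} (hL : ‖L‖ = 1) {γ τ : ℝ} (hγ : 0 < γ) (hτ : 0 < τ)
    (hdio : ∀ k : ℕ, 1 ≤ k → γ * (k : ℝ) ^ (-τ) ≤ ‖L ^ k - 1‖)
    {a : ℕ → ℂ} {C R : ℝ} (hC : 0 ≤ C) (hR : 0 ≤ R) (ha : ∀ k, ‖a k‖ ≤ C * R ^ k) :
    0 < (FormalMultilinearSeries.ofScalars ℂ (lin L a)).radius := by
  obtain ⟨x, hx, hxb⟩ := exists_major_le hC hR
  obtain ⟨A, hA⟩ := exists_weight_le hL hγ hτ hdio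
  set ρ : ℝ := x * ((2 : ℝ) ^ A)⁻¹
  have hρ : 0 < ρ := by positivity
  lift ρ to NNReal using hρ.le with ρ' hρ'
  refine lt_of_lt_of_le (show (0 : ENNReal) < ρ' by exact_mod_cast hρ) ?_
  refine FormalMultilinearSeries.le_radius_of_bound _ 1 fun n => ?_
  rw [FormalMultilinearSeries.ofScalars_norm]
  rcases n.eq_zero_or_pos with rfl | hn
  · simp [lin_zero]
  obtain ⟨J, hJ⟩ := pow_unbounded_of_one_lt (∑ m ∈ Finset.range (n + 1), eps L m)
    (one_lt_two : (1 : ℝ) < 2)
  have hle : ∀ m, m ≤ n → eps L m ≤ (2 : ℝ) ^ J := fun m hm =>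
    (Finset.single_le_sum (f := eps L) (fun k _ => inv_nonneg.2 (norm_nonneg _))
      (Finset.mem_range.2 (Nat.lt_succ_of_le hm))).trans hJ.le
  calc ‖lin L a n‖ * (ρ' : ℝ) ^ n
      ≤ major C R n * (2 : ℝ) ^ (A * n) * (ρ' : ℝ) ^ n := by
        refine mul_le_mul_of_nonneg_right ((norm_lin_le hC hR ha n hn hle).trans ?_) (by positivity)
        exact mul_le_mul_of_nonneg_left (pow_le_pow_right₀ one_le_two (hA J n))
          (major_nonneg hC hR n)
    _ = x ^ n * major C R n := by
        rw [hρ', pow_mul, mul_assoc, ← mul_pow, mul_left_comm, mul_inv_cancel₀ (by positivity),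
          mul_one, mul_comm]
    _ ≤ 1 := hxb n hn

end FA.SiegelLinearisation

end
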